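import Fermat.Agent.P2.Dih.Res
import Fermat.Agent.P2.Sel.Main

/-!
# P2, block 5a: the dihedral lemma (normalised form)
-/

set_option autoImplicit false
set_option linter.unusedSectionVars false

noncomputable section

open Matrix IsLocalRing

namespace Fermat.Agent.P2.Dih

open Sel

local notation "Ω" => AlgebraicClosure ℚ

section Lam

variable {A : Type*} [CommRing A]

/-- a functional on an ideal, semilinear for the residue map -/
structure Lam (r : A →+* ZMod 2) (J : Ideal A) where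
  /-- the function -/
  f : A → ZMod 2
  add : ∀ x ∈ J, ∀ y ∈ J, f (x + y) = f x + f y
  smul : ∀ a, ∀ x ∈ J, f (a * x) = r a * f x

variable {r : A →+* ZMod 2} {J : Ideal A} (Λ : Lam r J)

theorem Lam.zero : Λ.f 0 = 0 := by
  have h := Λ.smul 0 0 J.zero_mem
  rwa [mul_zero, map_zero, zero_mul] at h

/-- matrices with entries in `J` -/
def InJ (J : Ideal A) (m : Matrix (Fin 2) (Fin 2) A) : Prop := ∀ i j, m i j ∈ J

theorem InJ.mul_left {m : Matrix (Fin 2) (Fin 2) A} (h : InJ J m) (p : Matrix (Fin 2) (Fin 2) A) :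
    InJ J (p * m) := by
  intro i j
  rw [Matrix.mul_apply]
  exact Ideal.sum_mem _ fun k _ => J.mul_mem_left _ (h k j)

theorem InJ.mul_right {m : Matrix (Fin 2) (Fin 2) A} (h : InJ J m) (p : Matrix (Fin 2) (Fin 2) A) :
    InJ J (m * p) := by
  intro i j
  rw [Matrix.mul_apply]
  exact Ideal.sum_mem _ fun k _ => J.mul_mem_right _ (h i k)

theorem Lam.map_add {m n : Matrix (Fin 2) (Fin 2) A} (hm : InJ J m) (hn : InJ J n) :
    (m + n).map Λ.f = m.map Λ.f + n.map Λ.f := by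
  ext i j
  exact Λ.add _ (hm i j) _ (hn i j)

theorem Lam.map_mul_left {m : Matrix (Fin 2) (Fin 2) A} (hm : InJ J m)
    (p : Matrix (Fin 2) (Fin 2) A) : (p * m).map Λ.f = p.map r * m.map Λ.f := by
  ext i j
  simp only [Matrix.map_apply, Matrix.mul_apply, Fin.sum_univ_two]
  rw [Λ.add _ (J.mul_mem_left _ (hm _ _)) _ (J.mul_mem_left _ (hm _ _)), Λ.smul _ _ (hm _ _),
    Λ.smul _ _ (hm _ _)]

theorem Lam.map_mul_right {m : Matrix (Fin 2) (Fin 2) A} (hm : InJ J m)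
    (p : Matrix (Fin 2) (Fin 2) A) : (m * p).map Λ.f = m.map Λ.f * p.map r := by
  ext i j
  simp only [Matrix.map_apply, Matrix.mul_apply, Fin.sum_univ_two]
  rw [Λ.add _ (J.mul_mem_right _ (hm _ _)) _ (J.mul_mem_right _ (hm _ _)), mul_comm (m i 0),
    mul_comm (m i 1), Λ.smul _ _ (hm _ _), Λ.smul _ _ (hm _ _), mul_comm (r _), mul_comm (r _)]

theorem Lam.map_zero : (0 : Matrix (Fin 2) (Fin 2) A).map Λ.f = 0 := by
  ext i j
  exact Λ.zero

theorem Lam.part_map {m : Matrix (Fin 2) (Fin 2) A} (hm : InJ J m) (δ : ZMod 2) :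
    part δ (m.map Λ.f) = (part δ m).map Λ.f := by
  have h3 : ∀ x ∈ J, ∀ y ∈ J, ∀ z ∈ J, Λ.f (x + y + z) = Λ.f x + Λ.f y + Λ.f z :=
    fun x hx y hy z hz => by rw [Λ.add _ (J.add_mem hx hy) _ hz, Λ.add _ hx _ hy]
  rcases zmod2_cases δ with rfl | rfl
  · simp only [part_zero_left]
    ext i j
    fin_cases i <;> fin_cases j <;>
      simp [evP, h3 _ (hm _ _) _ (hm _ _) _ (hm _ _), Λ.add _ (hm _ _) _ (hm _ _)]
  · simp only [part_one_left]
    ext i j
    fin_cases i <;> fin_cases j <;>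
      simp [odP, h3 _ (hm _ _) _ (hm _ _) _ (hm _ _), Λ.add _ (hm _ _) _ (hm _ _)]

end Lam

section Core

variable {A : Type*} [CommRing A] (h2 : (2 : A) = 0) (r : A →+* ZMod 2)
  (ρ : GQ →* Matrix (Fin 2) (Fin 2) A)

/-- the residual matrices -/
def res (g : GQ) : M2 := (ρ g).map r

theorem res_mul (g h : GQ) : res r ρ (g * h) = res r ρ g * res r ρ h := by
  rw [res, map_mul, Matrix.map_mul]; rfl

theorem res_one : res r ρ 1 = 1 := by
  rw [res, map_one]
  ext i j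
  simp [Matrix.one_apply, apply_ite r]

theorem res_mul_inv (g : GQ) : res r ρ g * res r ρ g⁻¹ = 1 := by
  rw [← res_mul, mul_inv_cancel, res_one]

theorem res_inv_mul (g : GQ) : res r ρ g⁻¹ * res r ρ g = 1 := by
  rw [← res_mul, inv_mul_cancel, res_one]

theorem det_res (g : GQ) : (res r ρ g).det = 1 := det_eq_one_of_mul (res_mul_inv r ρ g)

/-- the parity -/
def eps (g : GQ) : ZMod 2 := par (res r ρ g)

theorem eps_mul (g h : GQ) : eps r ρ (g * h) = eps r ρ g + eps r ρ h := by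
  rw [eps, res_mul, par_mul (det_res r ρ g) (det_res r ρ h)]; rfl

theorem eps_one : eps r ρ 1 = 0 := by rw [eps, res_one, par_one]

theorem eps_inv (g : GQ) : eps r ρ g⁻¹ = eps r ρ g := by
  have h1 := eps_mul r ρ g g⁻¹
  rw [mul_inv_cancel, eps_one] at h1
  have key : ∀ x y : ZMod 2, 0 = x + y → y = x := by decide
  exact key _ _ h1

/-- the wrong part -/
def wr (g : GQ) : Matrix (Fin 2) (Fin 2) A := part (eps r ρ g + 1) (ρ g)

/-- the right part -/
def rt (g : GQ) : Matrix (Fin 2) (Fin 2) A := part (eps r ρ g) (ρ g)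

theorem res_wr (g : GQ) : (wr r ρ g).map r = 0 := by
  rw [wr, part_map]
  exact part_par (det_res r ρ g)

theorem res_rt (g : GQ) : (rt r ρ g).map r = res r ρ g := by
  rw [rt, part_map]
  exact part_par' (det_res r ρ g)

include h2

theorem wr_mul (g h : GQ) : wr r ρ (g * h) = rt r ρ g * wr r ρ h + wr r ρ g * rt r ρ h := by
  rw [wr, map_mul, part_mul h2 _ (eps r ρ g), eps_mul]
  have e1 : eps r ρ g + eps r ρ h + 1 + eps r ρ g = eps r ρ h + 1 := by
    generalize eps r ρ g = x; generalize eps r ρ h = y; revert x y; decide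
  have e2 : eps r ρ h + 1 + 1 = eps r ρ h := by
    generalize eps r ρ h = y; revert y; decide
  rw [e1, e2]
  rfl

theorem wr_of_scalar {g : GQ} {c : A} (hε : eps r ρ g = 0) (hg : ρ g = Matrix.scalar (Fin 2) c) :
    wr r ρ g = 0 := by
  rw [wr, hε, zero_add, hg, part_scalar_one h2]

omit h2 in
theorem eps_of_eq_one {g : GQ} (hg : ρ g = 1) : eps r ρ g = 0 := by
  rw [eps, res, hg]
  have : (1 : Matrix (Fin 2) (Fin 2) A).map r = 1 := by
    ext i j
    simp [Matrix.one_apply, apply_ite r]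
  rw [this, par_one]

theorem wr_of_eq_one {g : GQ} (hg : ρ g = 1) : wr r ρ g = 0 :=
  wr_of_scalar h2 r ρ (c := 1) (eps_of_eq_one r ρ hg) (by rw [hg, map_one])

omit h2 in
theorem wr_congr {g h : GQ} (hgh : ρ g = ρ h) : wr r ρ g = wr r ρ h := by
  rw [wr, wr, eps, eps, res, res, hgh]

/-- the ideal of the entries of the wrong parts -/
def Jw : Ideal A := Ideal.span {x | ∃ g i j, x = wr r ρ g i j}

omit h2 in
theorem inJ_wr (g : GQ) : InJ (Jw r ρ) (wr r ρ g) := fun i j => Ideal.subset_span ⟨g, i, j, rfl⟩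

variable (Λ : Lam r (Jw r ρ))

/-- `Λ` applied to the wrong part -/
def wl (g : GQ) : M2 := (wr r ρ g).map Λ.f

theorem wl_mul (g h : GQ) :
    wl r ρ Λ (g * h) = res r ρ g * wl r ρ Λ h + wl r ρ Λ g * res r ρ h := by
  rw [wl, wr_mul h2, Λ.map_add ((inJ_wr r ρ h).mul_left _) ((inJ_wr r ρ g).mul_right _),
    Λ.map_mul_left (inJ_wr r ρ h), Λ.map_mul_right (inJ_wr r ρ g), res_rt, res_rt]
  rfl

theorem part_wl (g : GQ) : part (eps r ρ g) (wl r ρ Λ g) = 0 := by
  rw [wl, Λ.part_map (inJ_wr r ρ g), wr]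
  have h1 := part_part h2 (eps r ρ g + 1) (ρ g)
  have e : eps r ρ g + 1 + 1 = eps r ρ g := by
    generalize eps r ρ g = y; revert y; decide
  rw [e] at h1
  rw [h1, Λ.map_zero]

/-- the cocycle with values in the odd matrices -/
def xiM (g : GQ) : M2 := wl r ρ Λ g * res r ρ g⁻¹

theorem evP_xiM (g : GQ) : evP (xiM r ρ Λ g) = 0 := by
  rw [← part_zero_left, xiM, part_mul two_zmod2 0 (eps r ρ g), part_wl h2, zero_mul, zero_add,
    zero_add, ← eps_inv, eps, part_par (det_res r ρ g⁻¹), mul_zero]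

theorem xiM_mul (g h : GQ) :
    xiM r ρ Λ (g * h) = res r ρ g * xiM r ρ Λ h * res r ρ g⁻¹ + xiM r ρ Λ g := by
  have h1 : res r ρ h * res r ρ h⁻¹ = 1 := res_mul_inv r ρ h
  rw [xiM, wl_mul h2, _root_.mul_inv_rev, res_mul, add_mul, xiM, xiM]
  congr 1
  · simp only [mul_assoc]
  · calc wl r ρ Λ g * res r ρ h * (res r ρ h⁻¹ * res r ρ g⁻¹)
        = wl r ρ Λ g * (res r ρ h * res r ρ h⁻¹) * res r ρ g⁻¹ := by simp only [mul_assoc]
      _ = _ := by rw [h1, mul_one]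

/-- the vector valued cocycle -/
def xi (g : GQ) : Fin 2 → ZMod 2 := vec (xiM r ρ Λ g)

variable {r ρ} {ρV : Representation (ZMod 2) GQ (Fin 2 → ZMod 2)}
  (hV : ∀ g x, ρV g x = (res r ρ g).mulVec x)

include hV

theorem isCoc_xi : IsCoc ρV (xi r ρ Λ) := by
  intro g h
  rw [xi, xiM_mul h2, vec_add, vec_conj (res_mul_inv r ρ g) (evP_xiM h2 r ρ Λ h), hV, add_comm]
  rfl

/-- the line condition -/
theorem lineAt_xi {P : ValuationSubring Ω}
    (hcomm : ∀ g ∈ P.decompositionSubgroup ℚ, ∀ h ∈ P.decompositionSubgroup ℚ,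
      ρ g * ρ h = ρ h * ρ g)
    (hsq : ∀ g ∈ P.decompositionSubgroup ℚ, ∃ c, ρ g * ρ g = Matrix.scalar (Fin 2) c) :
    LineAt ρV P (xi r ρ Λ) := by
  have hres1 : ∀ g ∈ P.decompositionSubgroup ℚ, res r ρ g * res r ρ g = 1 := by
    intro g hg
    obtain ⟨c, hc⟩ := hsq g hg
    have h1 : res r ρ g * res r ρ g = Matrix.scalar (Fin 2) (r c) := by
      rw [res, ← Matrix.map_mul, hc]
      ext i j
      simp [Matrix.scalar_apply, Matrix.diagonal_apply, apply_ite r]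
    have h3 : (Matrix.scalar (Fin 2) (r c)).det = 1 := by
      rw [← h1, Matrix.det_mul, det_res, one_mul]
    have h4 : r c = 1 := by
      rcases zmod2_cases (r c) with h5 | h5
      · rw [h5, RingHom.map_zero, Matrix.det_zero] at h3
        exact absurd h3 zero_ne_one
      · exact h5
    rw [h1, h4, RingHom.map_one]
  -- `res h` commutes with `wl g`
  have key : ∀ g ∈ P.decompositionSubgroup ℚ, ∀ h ∈ P.decompositionSubgroup ℚ,
      res r ρ h * wl r ρ Λ g = wl r ρ Λ g * res r ρ h := by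
    intro g hg h hh
    have hsq' : ∀ k ∈ P.decompositionSubgroup ℚ,
        res r ρ k * wl r ρ Λ k = wl r ρ Λ k * res r ρ k := by
      intro k hk
      obtain ⟨c, hc⟩ := hsq k hk
      have e1 : wl r ρ Λ (k * k) = 0 := by
        rw [wl, wr_of_scalar h2 r ρ (c := c) (by rw [eps_mul]; exact add_self_zmod2 _)
          (by rw [map_mul, hc]), Λ.map_zero]
      rw [wl_mul h2] at e1
      have e2 : ∀ X Y : M2, X + Y = 0 → X = Y := by
        intro X Y hXY
        ext i j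
        have := congrFun (congrFun hXY i) j
        have e3 : ∀ x y : ZMod 2, x + y = 0 → x = y := by decide
        exact e3 _ _ this
      exact e2 _ _ e1
    by_cases hh1 : res r ρ h = 1
    · rw [hh1, one_mul, mul_one]
    have hcm := hcomm g hg h hh
    have e1 : wl r ρ Λ (g * h) = wl r ρ Λ (h * g) := by
      rw [wl, wl, wr_congr r ρ (g := g * h) (h := h * g) (by rw [map_mul, map_mul, hcm])]
    rw [wl_mul h2, wl_mul h2] at e1
    by_cases hg1 : res r ρ g = 1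
    · rw [hg1, one_mul, mul_one, add_comm] at e1
      exact (add_right_cancel e1).symm
    · have h3 : res r ρ g * res r ρ h = res r ρ h * res r ρ g := by
        rw [← res_mul, ← res_mul, res, res, map_mul, map_mul, hcm]
      rw [← eq_of_comm (hres1 g hg) (hres1 h hh) h3 hg1 hh1]
      exact hsq' g hg
  refine ⟨0, fun g hg h hh => ?_⟩
  rw [map_zero, sub_zero, sub_zero, hV]
  have e1 : res r ρ h * xiM r ρ Λ g * res r ρ h⁻¹ = xiM r ρ Λ g := by
    have e2 : res r ρ h * res r ρ g⁻¹ = res r ρ g⁻¹ * res r ρ h := by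
      rw [← res_mul, ← res_mul, res, res, map_mul, map_mul,
        hcomm h hh g⁻¹ (Subgroup.inv_mem _ hg)]
    calc res r ρ h * xiM r ρ Λ g * res r ρ h⁻¹
        = (res r ρ h * wl r ρ Λ g) * res r ρ g⁻¹ * res r ρ h⁻¹ := by
          rw [xiM]; simp only [mul_assoc]
      _ = wl r ρ Λ g * (res r ρ h * res r ρ g⁻¹) * res r ρ h⁻¹ := by
          rw [key g hg h hh]; simp only [mul_assoc]
      _ = wl r ρ Λ g * res r ρ g⁻¹ * (res r ρ h * res r ρ h⁻¹) := by
          rw [e2]; simp only [mul_assoc]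
      _ = _ := by rw [res_mul_inv, mul_one]; rfl
  have e3 := vec_conj (res_mul_inv r ρ h) (evP_xiM h2 r ρ Λ g)
  rw [e1] at e3
  exact e3.symm

theorem unrAt_xi {P : ValuationSubring Ω} (hP : ∀ g ∈ P.inertiaSubgroupIn ℚ, ρ g = 1) :
    UnrAt P (xi r ρ Λ) := by
  intro g hg
  rw [xi, xiM, wl, wr_of_eq_one h2 r ρ (hP g hg), Λ.map_zero, zero_mul, vec_zero]

omit hV h2 in
theorem levelConst_xi (hlev : ∃ L : IntermediateField ℚ Ω, FiniteDimensional ℚ L ∧
    ∀ h : GQ, (∀ x ∈ L, h x = x) → ρ h = 1) : LevelConst (xi r ρ Λ) := by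
  obtain ⟨L, hL, h1⟩ := hlev
  refine ⟨L, hL, fun g h hh => ?_⟩
  have h3 := h1 h hh
  have h4 : ρ (g * h) = ρ g := by rw [map_mul, h3, mul_one]
  have h5 : ρ h⁻¹ = 1 := by
    have : ρ h * ρ h⁻¹ = 1 := by rw [← map_mul, mul_inv_cancel, map_one]
    rwa [h3, one_mul] at this
  have h6 : ρ (g * h)⁻¹ = ρ g⁻¹ := by rw [_root_.mul_inv_rev, map_mul, h5, one_mul]
  rw [xi, xi, xiM, xiM, wl, wl, wr_congr r ρ h4, res, res, h6]

omit h2 hV in
theorem finite_range_wr (r : A →+* ZMod 2) (ρ : GQ →* Matrix (Fin 2) (Fin 2) A)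
    (hlev : ∃ L : IntermediateField ℚ Ω, FiniteDimensional ℚ L ∧
      ∀ h : GQ, (∀ x ∈ L, h x = x) → ρ h = 1) : (Set.range (wr r ρ)).Finite := by
  obtain ⟨L, hL, h1⟩ := hlev
  have hW : IsOpen (L.fixingSubgroup : Set GQ) := L.fixingSubgroup_isOpen
  have hGW : Finite (GQ ⧸ L.fixingSubgroup) := Subgroup.quotient_finite_of_isOpen _ hW
  have hconst : ∀ g h : GQ, QuotientGroup.leftRel L.fixingSubgroup g h → wr r ρ g = wr r ρ h := by
    intro g h hgh
    rw [QuotientGroup.leftRel_apply] at hgh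
    apply wr_congr
    have h3 : ρ (g⁻¹ * h) = 1 := h1 _ fun x hx => (IntermediateField.mem_fixingSubgroup_iff _ _).mp hgh x hx
    have h4 : h = g * (g⁻¹ * h) := by group
    rw [h4, map_mul, h3, mul_one]
  have h5 : Set.range (wr r ρ) = Set.range
      (Quotient.lift (wr r ρ) hconst : GQ ⧸ L.fixingSubgroup → _) := by
    ext x
    constructor
    · rintro ⟨g, rfl⟩
      exact ⟨QuotientGroup.mk g, rfl⟩
    · rintro ⟨q, rfl⟩
      obtain ⟨g, rfl⟩ := QuotientGroup.mk_surjective q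
      exact ⟨g, rfl⟩
  rw [h5]
  exact Set.finite_range _

omit h2 hV in
theorem fg_Jw (hlev : ∃ L : IntermediateField ℚ Ω, FiniteDimensional ℚ L ∧
      ∀ h : GQ, (∀ x ∈ L, h x = x) → ρ h = 1) : (Jw r ρ).FG := by
  have h1 : {x | ∃ g i j, x = wr r ρ g i j} =
      ⋃ m ∈ Set.range (wr r ρ), Set.range fun ij : Fin 2 × Fin 2 => m ij.1 ij.2 := by
    ext x
    simp only [Set.mem_ofPred_eq, Set.mem_iUnion, Set.mem_range, exists_prop, Prod.exists]
    constructor
    · rintro ⟨g, i, j, rfl⟩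
      exact ⟨_, ⟨g, rfl⟩, i, j, rfl⟩
    · rintro ⟨_, ⟨g, rfl⟩, i, j, rfl⟩
      exact ⟨g, i, j, rfl⟩
  have h2 : {x | ∃ g i j, x = wr r ρ g i j}.Finite := by
    rw [h1]
    exact (finite_range_wr r ρ hlev).biUnion fun m _ => Set.finite_range _
  exact Submodule.fg_span h2

/-- **The dihedral lemma**, normalised form. -/
theorem wr_eq_zero [IsLocalRing A] (hr : ∀ a, r a = 0 → a ∈ maximalIdeal A) {S Q : Finset ℕ}
    (hlev : ∃ L : IntermediateField ℚ Ω, FiniteDimensional ℚ L ∧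
      ∀ h : GQ, (∀ x ∈ L, h x = x) → ρ h = 1)
    (hunr : ∀ ℓ : ℕ, ℓ.Prime → ℓ ∉ S → ℓ ∉ Q → ∀ P : ValuationSubring Ω, P.LiesOverPrime ℓ →
      ∀ g ∈ P.inertiaSubgroupIn ℚ, ρ g = 1)
    (hcomm : ∀ ℓ : ℕ, (ℓ ∈ S ∨ ℓ ∈ Q) → ∀ P : ValuationSubring Ω, P.LiesOverPrime ℓ →
      ∀ g ∈ P.decompositionSubgroup ℚ, ∀ h ∈ P.decompositionSubgroup ℚ, ρ g * ρ h = ρ h * ρ g)
    (hsq : ∀ ℓ : ℕ, (ℓ ∈ S ∨ ℓ ∈ Q) → ∀ P : ValuationSubring Ω, P.LiesOverPrime ℓ →
      ∀ g ∈ P.decompositionSubgroup ℚ, ∃ c, ρ g * ρ g = Matrix.scalar (Fin 2) c)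
    (hsel : ∀ ξ ∈ Selmer ρV S Q, ∃ x, ξ = cob ρV x)
    {τ : GQ} (hτ : ρ τ = t0 A) (g : GQ) : wr r ρ g = 0 := by
  by_contra hne
  have hJ : Jw r ρ ≠ ⊥ := by
    intro h
    apply hne
    ext i j
    have h1 := inJ_wr r ρ g i j
    rw [h] at h1
    exact (Submodule.mem_bot A).mp h1
  obtain ⟨Λ, hadd, hsmul, x, hx, hΛx⟩ := exists_functional h2 r hr (Jw r ρ) (fg_Jw hlev) hJ
  let Λ' : Lam r (Jw r ρ) := ⟨Λ, hadd, hsmul⟩
  have hmem : xi r ρ Λ' ∈ Selmer ρV S Q :=
    ⟨isCoc_xi h2 Λ' hV, levelConst_xi Λ' hlev,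
      fun ℓ hℓ _ hS hQ P hP => unrAt_xi h2 Λ' hV (hunr ℓ hℓ hS hQ P hP),
      fun ℓ _ hℓ P hP => lineAt_xi h2 Λ' hV (hcomm ℓ hℓ P hP) (hsq ℓ hℓ P hP)⟩
  obtain ⟨y, hy⟩ := hsel _ hmem
  -- evaluate at `τ`
  have hrt : res r ρ τ = t0 (ZMod 2) := by
    rw [res, hτ]
    ext i j
    fin_cases i <;> fin_cases j <;> simp [t0]
  have hετ : eps r ρ τ = 0 := by rw [eps, hrt, par_t0]
  have hwτ : wr r ρ τ = 0 := by rw [wr, hετ, zero_add, hτ, part_t0 h2]
  have h3 : xi r ρ Λ' τ = 0 := by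
    rw [xi, xiM, wl, hwτ, Λ'.map_zero, zero_mul, vec_zero]
  have h4 : y = 0 := by
    have h5 := congrFun hy τ
    rw [h3, cob_apply, hV, hrt] at h5
    have h6 : (t0 (ZMod 2)).mulVec y = y := (sub_eq_zero.mp h5.symm)
    have q0 := congrFun h6 0
    have q1 := congrFun h6 1
    simp [t0, Matrix.mulVec, dotProduct, Fin.sum_univ_two] at q0 q1
    have key : ∀ a b : ZMod 2, b = a → a + b = b → a = 0 ∧ b = 0 := by decide
    obtain ⟨k0, k1⟩ := key _ _ q0 (by simpa using q1)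
    ext i
    fin_cases i
    · exact k0
    · exact k1
  have h5 : ∀ k, wl r ρ Λ' k = 0 := by
    intro k
    have h6 : xi r ρ Λ' k = 0 := by rw [hy, h4, map_zero]; rfl
    have h7 : xiM r ρ Λ' k = 0 := eq_zero_of_vec (evP_xiM h2 r ρ Λ' k) h6
    calc wl r ρ Λ' k = wl r ρ Λ' k * (res r ρ k⁻¹ * res r ρ k) := by rw [res_inv_mul, mul_one]
      _ = xiM r ρ Λ' k * res r ρ k := by rw [xiM, mul_assoc]
      _ = 0 := by rw [h7, zero_mul]
  apply hΛx
  -- `Λ` vanishes on the generators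
  have hspan : ∀ z ∈ Jw r ρ, Λ z = 0 := by
    intro z hz
    refine Submodule.span_induction (p := fun z _ => Λ z = 0) ?_ ?_ ?_ ?_ hz
    · rintro _ ⟨k, i, j, rfl⟩
      exact congrFun (congrFun (h5 k) i) j
    · exact Λ'.zero
    · intro a b ha hb ha0 hb0
      rw [hadd a ha b hb, ha0, hb0, add_zero]
    · intro a b hb hb0
      rw [smul_eq_mul, hsmul a b hb, hb0, mul_zero]
  exact hspan x hx

end Core

end Fermat.Agent.P2.Dih
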