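import Fermat.Agent.P2.Dih.Core

/-!
# P2, block 5a: the dihedral lemma
-/

set_option autoImplicit false
set_option linter.unusedSectionVars false

noncomputable section

open Matrix IsLocalRing

namespace Fermat.Agent.P2.Dih

open Sel

local notation "Ω" => AlgebraicClosure ℚ

section Unit

variable {A : Type*} [CommRing A] [IsLocalRing A] {r : A →+* ZMod 2}
  (hr : ∀ a, r a = 0 → a ∈ maximalIdeal A)

include hr

theorem isUnit_of_res {a : A} (h : r a = 1) : IsUnit a := by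
  by_contra hcon
  have h1 : a ∈ maximalIdeal A := (mem_maximalIdeal _).mpr hcon
  have h2 : a - 1 ∈ maximalIdeal A := hr _ (by rw [map_sub, h, map_one, sub_self])
  have h3 := (maximalIdeal A).sub_mem h1 h2
  rw [sub_sub_cancel] at h3
  exact (mem_maximalIdeal _).mp h3 isUnit_one

theorem isUnit_mat {m : Matrix (Fin 2) (Fin 2) A} (h : (m.map r).det = 1) : IsUnit m := by
  rw [Matrix.isUnit_iff_isUnit_det]
  apply isUnit_of_res hr
  rw [← RingHom.mapMatrix_apply, ← RingHom.map_det] at h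
  exact h

/-- a matrix congruent to one of odd order is one -/
theorem eq_one_of_odd {y : Matrix (Fin 2) (Fin 2) A} (hy : y.map r = 1) {b : ℕ} (hb : Odd b)
    (hyb : y ^ b = 1) : y = 1 := by
  have h1 : (y - 1) * ∑ i ∈ Finset.range b, y ^ i = 0 := by
    rw [mul_geom_sum, hyb, sub_self]
  have h2 : IsUnit (∑ i ∈ Finset.range b, y ^ i) := by
    apply isUnit_mat hr
    have e1 : (∑ i ∈ Finset.range b, y ^ i).map r = 1 := by
      rw [← RingHom.mapMatrix_apply, map_sum]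
      have e2 : ∀ i ∈ Finset.range b, r.mapMatrix (y ^ i) = 1 := by
        intro i _
        rw [map_pow, RingHom.mapMatrix_apply, hy, one_pow]
      rw [Finset.sum_congr rfl e2, Finset.sum_const, Finset.card_range]
      obtain ⟨k, rfl⟩ := hb
      rw [add_smul, mul_smul, one_smul, two_nsmul]
      have e3 : ∀ X : M2, X + X = 0 := by
        intro X
        ext i j
        exact add_self_zmod2 _
      rw [e3, zero_add]
    rw [e1, Matrix.det_one]
  have h3 := h2.mul_left_eq_zero.mp h1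
  exact sub_eq_zero.mp h3

end Unit

section Tau

variable {A : Type*} [CommRing A] [IsLocalRing A] (h2 : (2 : A) = 0) {r : A →+* ZMod 2}
  (hr : ∀ a, r a = 0 → a ∈ maximalIdeal A) {ρ : GQ →* Matrix (Fin 2) (Fin 2) A}

theorem res_pow (g : GQ) (n : ℕ) : res r ρ (g ^ n) = res r ρ g ^ n := by
  induction n with
  | zero => rw [pow_zero, pow_zero, res_one]
  | succ n ih => rw [pow_succ, pow_succ, res_mul, ih]

theorem t0_cube : (t0 (ZMod 2)) ^ 3 = 1 := by
  rw [pow_succ, pow_two]; decide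

theorem t0_pow_four (a : ℕ) : (t0 (ZMod 2)) ^ 4 ^ a = t0 (ZMod 2) := by
  induction a with
  | zero => rw [pow_zero, pow_one]
  | succ a ih =>
    rw [pow_succ, pow_mul, ih]
    calc (t0 (ZMod 2)) ^ 4 = (t0 (ZMod 2)) ^ 3 * t0 (ZMod 2) := pow_succ _ _
      _ = t0 (ZMod 2) := by rw [t0_cube, one_mul]

include h2 hr

theorem exists_tau (hlev : ∃ L : IntermediateField ℚ Ω, FiniteDimensional ℚ L ∧
      ∀ h : GQ, (∀ x ∈ L, h x = x) → ρ h = 1) {τ₀ : GQ} (hτ₀ : res r ρ τ₀ = t0 (ZMod 2)) :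
    ∃ τ : GQ, res r ρ τ = t0 (ZMod 2) ∧ ρ τ * ρ τ = ρ τ + 1 := by
  obtain ⟨L, hL, h1⟩ := hlev
  have hW : IsOpen (L.fixingSubgroup : Set GQ) := L.fixingSubgroup_isOpen
  have hGW : Finite (GQ ⧸ L.fixingSubgroup) := Subgroup.quotient_finite_of_isOpen _ hW
  obtain ⟨N, hN0, -, hN⟩ := Subgroup.exists_pow_mem_of_index_ne_zero
    (H := L.fixingSubgroup) (by rw [Subgroup.index]; exact Nat.card_pos.ne') τ₀
  have hx : ρ τ₀ ^ N = 1 := by
    rw [← map_pow]
    exact h1 _ fun x hx => (IntermediateField.mem_fixingSubgroup_iff _ _).mp hN x hx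
  obtain ⟨a, b, hb, hab⟩ := Nat.exists_eq_two_pow_mul_odd (n := N) (by omega)
  refine ⟨τ₀ ^ 4 ^ a, by rw [res_pow, hτ₀, t0_pow_four], ?_⟩
  set x : Matrix (Fin 2) (Fin 2) A := ρ (τ₀ ^ 4 ^ a) with hxdef
  have hxm : x.map r = t0 (ZMod 2) := by
    have : x.map r = res r ρ (τ₀ ^ 4 ^ a) := rfl
    rw [this, res_pow, hτ₀, t0_pow_four]
  have hx3 : x ^ 3 = 1 := by
    refine eq_one_of_odd hr ?_ hb ?_
    · rw [← RingHom.mapMatrix_apply, map_pow, RingHom.mapMatrix_apply, hxm, t0_cube]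
    · rw [hxdef, map_pow, ← pow_mul, ← pow_mul]
      have e1 : 4 ^ a * 3 * b = N * (2 ^ a * 3) := by
        rw [hab, show (4 : ℕ) = 2 * 2 from rfl, mul_pow]
        ring
      rw [← mul_assoc, e1, pow_mul, hx, one_pow]
  have h3 : (x - 1) * (x * x + x + 1) = 0 := by
    have e1 : (x - 1) * (x * x + x + 1) = x ^ 3 - 1 := by
      rw [pow_succ, pow_two]
      noncomm_ring
    rw [e1, hx3, sub_self]
  have h4 : IsUnit (x - 1) := by
    apply isUnit_mat hr
    have e1 : (x - 1).map r = t0 (ZMod 2) - 1 := by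
      rw [← RingHom.mapMatrix_apply, map_sub, map_one, RingHom.mapMatrix_apply, hxm]
    rw [e1]
    decide
  have h5 := h4.mul_right_eq_zero.mp h3
  have e3 : ∀ X : Matrix (Fin 2) (Fin 2) A, X + X = 0 := by
    intro X
    ext i j
    rw [Matrix.add_apply, ← two_mul, h2, zero_mul, Matrix.zero_apply]
  calc x * x = (x * x + x + 1) - (x + 1) := by abel
    _ = -(x + 1) := by rw [h5, zero_sub]
    _ = x + 1 := by
      rw [neg_eq_iff_add_eq_zero]
      exact e3 _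

end Tau

section Conj

variable {A : Type*} [CommRing A] {r : A →+* ZMod 2} {ρ : GQ →* Matrix (Fin 2) (Fin 2) A}

/-- the conjugate representation -/
def conjRep (P : GL (Fin 2) A) (ρ : GQ →* Matrix (Fin 2) (Fin 2) A) :
    GQ →* Matrix (Fin 2) (Fin 2) A where
  toFun g := (P⁻¹).1 * ρ g * P.1
  map_one' := by rw [map_one, mul_one, ← Units.val_mul, inv_mul_cancel, Units.val_one]
  map_mul' g h := by
    have h1 : P.1 * (P⁻¹).1 = 1 := by rw [← Units.val_mul, mul_inv_cancel, Units.val_one]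
    rw [map_mul]
    calc (P⁻¹).1 * (ρ g * ρ h) * P.1 = (P⁻¹).1 * ρ g * (1 * (ρ h * P.1)) := by
          rw [one_mul]; simp only [mul_assoc]
      _ = (P⁻¹).1 * ρ g * ((P.1 * (P⁻¹).1) * (ρ h * P.1)) := by rw [h1]
      _ = _ := by simp only [mul_assoc]

theorem conjRep_apply (P : GL (Fin 2) A) (ρ : GQ →* Matrix (Fin 2) (Fin 2) A) (g : GQ) :
    conjRep P ρ g = (P⁻¹).1 * ρ g * P.1 := rfl

theorem conjRep_eq_iff (P : GL (Fin 2) A) (ρ : GQ →* Matrix (Fin 2) (Fin 2) A) (g : GQ) :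
    ρ g = P.1 * conjRep P ρ g * (P⁻¹).1 := by
  have h1 : P.1 * (P⁻¹).1 = 1 := by rw [← Units.val_mul, mul_inv_cancel, Units.val_one]
  rw [conjRep_apply]
  calc ρ g = (P.1 * (P⁻¹).1) * ρ g * (P.1 * (P⁻¹).1) := by rw [h1, one_mul, mul_one]
    _ = _ := by simp only [mul_assoc]

theorem res_conjRep {P : GL (Fin 2) A} (hP : P.1.map r = 1) (g : GQ) :
    res r (conjRep P ρ) g = res r ρ g := by
  have hP' : (P⁻¹).1.map r = 1 := by
    have h1 : (P⁻¹).1.map r * P.1.map r = 1 := by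
      rw [← Matrix.map_mul, ← Units.val_mul, inv_mul_cancel, Units.val_one]
      ext i j
      simp [Matrix.one_apply, apply_ite r]
    rwa [hP, mul_one] at h1
  rw [res, conjRep_apply, Matrix.map_mul, Matrix.map_mul, hP, hP', one_mul, mul_one]
  rfl

theorem conjRep_of_eq_one {P : GL (Fin 2) A} {g : GQ} (hg : ρ g = 1) : conjRep P ρ g = 1 := by
  rw [conjRep_apply, hg, mul_one, ← Units.val_mul, inv_mul_cancel, Units.val_one]

end Conj

section Main

variable {A : Type*} [CommRing A] [IsLocalRing A] {r : A →+* ZMod 2}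
  {ρ : GQ →* Matrix (Fin 2) (Fin 2) A} {ρV : Representation (ZMod 2) GQ (Fin 2 → ZMod 2)}

/-- **The dihedral lemma.** -/
theorem dihedral (h2 : (2 : A) = 0) (hr : ∀ a, r a = 0 → a ∈ maximalIdeal A) {S Q : Finset ℕ}
    (hV : ∀ g x, ρV g x = ((ρ g).map r).mulVec x)
    (hlev : ∃ L : IntermediateField ℚ Ω, FiniteDimensional ℚ L ∧
      ∀ h : GQ, (∀ x ∈ L, h x = x) → ρ h = 1)
    (hunr : ∀ ℓ : ℕ, ℓ.Prime → ℓ ∉ S → ℓ ∉ Q → ∀ P : ValuationSubring Ω, P.LiesOverPrime ℓ →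
      ∀ g ∈ P.inertiaSubgroupIn ℚ, ρ g = 1)
    (hcomm : ∀ ℓ : ℕ, (ℓ ∈ S ∨ ℓ ∈ Q) → ∀ P : ValuationSubring Ω, P.LiesOverPrime ℓ →
      ∀ g ∈ P.decompositionSubgroup ℚ, ∀ h ∈ P.decompositionSubgroup ℚ, ρ g * ρ h = ρ h * ρ g)
    (hsq : ∀ ℓ : ℕ, (ℓ ∈ S ∨ ℓ ∈ Q) → ∀ P : ValuationSubring Ω, P.LiesOverPrime ℓ →
      ∀ g ∈ P.decompositionSubgroup ℚ, ∃ c, ρ g * ρ g = Matrix.scalar (Fin 2) c)
    (hsel : ∀ ξ ∈ Selmer ρV S Q, ∃ x, ξ = cob ρV x)
    {τ₀ : GQ} (hτ₀ : (ρ τ₀).map r = !![0, 1; 1, 1]) :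
    ∃ P : GL (Fin 2) A, P.1.map r = 1 ∧
      ∀ g, part (eps r ρ g + 1) ((P⁻¹).1 * ρ g * P.1) = 0 := by
  obtain ⟨τ, hτ1, hτ2⟩ := exists_tau h2 hr hlev (τ₀ := τ₀) hτ₀
  set x := ρ τ with hx
  have hxr : x.map r = t0 (ZMod 2) := hτ1
  have hx10 : r (x 1 0) = 1 := by
    have := congrFun (congrFun hxr 1) 0
    simpa [t0] using this
  have hx00 : r (x 0 0) = 0 := by
    have := congrFun (congrFun hxr 0) 0
    simpa [t0] using this
  set M : Matrix (Fin 2) (Fin 2) A := !![1, x 0 0; 0, x 1 0] with hM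
  have hMdet : IsUnit M.det := by
    rw [hM, Matrix.det_fin_two_of, one_mul, mul_zero, sub_zero]
    exact isUnit_of_res hr hx10
  set P : GL (Fin 2) A := Matrix.GeneralLinearGroup.mk'' M hMdet with hPdef
  have hPv : P.1 = M := rfl
  have hP : P.1.map r = 1 := by
    rw [hPv, hM]
    ext i j
    fin_cases i <;> fin_cases j <;> simp [hx10, hx00]
  have hinv : (P⁻¹).1 * P.1 = 1 := by rw [← Units.val_mul, inv_mul_cancel, Units.val_one]
  have hxP : x * P.1 = P.1 * t0 A := by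
    have q00 := congrFun (congrFun hτ2 0) 0
    have q10 := congrFun (congrFun hτ2 1) 0
    simp only [Matrix.mul_apply, Fin.sum_univ_two, Matrix.add_apply, Matrix.one_apply,
      Fin.isValue, if_true, one_ne_zero, if_false] at q00 q10
    rw [hPv, hM]
    ext i j
    fin_cases i <;> fin_cases j <;> simp [t0, Matrix.mul_apply, Fin.sum_univ_two]
    · linear_combination q00
    · linear_combination q10
  have hτ : conjRep P ρ τ = t0 A := by
    rw [conjRep_apply, mul_assoc, ← hx, hxP, ← mul_assoc, hinv, one_mul]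
  refine ⟨P, hP, fun g => ?_⟩
  have hε : eps r ρ g = eps r (conjRep P ρ) g := by rw [eps, eps, res_conjRep hP]
  rw [hε]
  refine wr_eq_zero (r := r) (ρ := conjRep P ρ) (ρV := ρV) h2 ?_ hr ?_ ?_ ?_ ?_ hsel hτ g
  · intro g x
    rw [hV, res_conjRep hP]
    rfl
  · obtain ⟨L, hL, h1⟩ := hlev
    exact ⟨L, hL, fun h hh => conjRep_of_eq_one (h1 h hh)⟩
  · intro ℓ hℓ hS hQ P' hP' g hg
    exact conjRep_of_eq_one (hunr ℓ hℓ hS hQ P' hP' g hg)
  · intro ℓ hℓ P' hP' g hg h hh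
    rw [← map_mul, ← map_mul, conjRep_apply, conjRep_apply, map_mul, map_mul,
      hcomm ℓ hℓ P' hP' g hg h hh]
  · intro ℓ hℓ P' hP' g hg
    obtain ⟨c, hc⟩ := hsq ℓ hℓ P' hP' g hg
    refine ⟨c, ?_⟩
    rw [← map_mul, conjRep_apply, map_mul, hc]
    have e1 : Commute (Matrix.scalar (Fin 2) c) (P⁻¹).1 :=
      Matrix.scalar_commute c (fun _ => Commute.all _ _) _
    rw [← e1.eq, mul_assoc, hinv, mul_one]

/-- consequences of the dihedral lemma -/
theorem comm_of_dihedral (h2 : (2 : A) = 0) {P : GL (Fin 2) A}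
    (hP : ∀ g, part (eps r ρ g + 1) ((P⁻¹).1 * ρ g * P.1) = 0) {g h : GQ}
    (hg : eps r ρ g = 0) (hh : eps r ρ h = 0) : ρ g * ρ h = ρ h * ρ g := by
  have e : ∀ k, eps r ρ k = 0 → (P⁻¹).1 * ρ k * P.1 = evP ((P⁻¹).1 * ρ k * P.1) := by
    intro k hk
    have h1 := hP k
    rw [hk, zero_add, part_one_left] at h1
    have h3 := evP_add_odP h2 ((P⁻¹).1 * ρ k * P.1)
    rw [h1, add_zero] at h3
    exact h3.symm
  have h3 : conjRep P ρ g * conjRep P ρ h = conjRep P ρ h * conjRep P ρ g := by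
    rw [conjRep_apply, conjRep_apply, e g hg, e h hh, even_comm h2]
  have h4 : ρ (g * h) = ρ (h * g) := by
    rw [conjRep_eq_iff P ρ (g * h), conjRep_eq_iff P ρ (h * g), map_mul, map_mul, h3]
  rwa [map_mul, map_mul] at h4

theorem trace_of_dihedral (h2 : (2 : A) = 0) {P : GL (Fin 2) A}
    (hP : ∀ g, part (eps r ρ g + 1) ((P⁻¹).1 * ρ g * P.1) = 0) {g : GQ}
    (hg : eps r ρ g = 1) : (ρ g).trace = 0 := by
  have h1 := hP g
  rw [hg, one_add_one, part_zero_left] at h1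
  have h3 := evP_add_odP h2 ((P⁻¹).1 * ρ g * P.1)
  rw [h1, zero_add] at h3
  have h4 : ((P⁻¹).1 * ρ g * P.1).trace = 0 := by rw [← h3, trace_odP h2]
  rw [Matrix.trace_mul_comm, ← mul_assoc, ← Units.val_mul, mul_inv_cancel, Units.val_one,
    one_mul] at h4
  exact h4

/-- `StRel` with determinant one gives commutativity and scalar squares. -/
theorem comm_of_rel {e : GQ → A} {D : Subgroup GQ}
    (h : ∀ g ∈ D, ∀ h ∈ D, (ρ g - algebraMap A (Matrix (Fin 2) (Fin 2) A) (e g)) *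
      (ρ h - algebraMap A (Matrix (Fin 2) (Fin 2) A) (e h)) = 0) {g k : GQ} (hg : g ∈ D)
    (hk : k ∈ D) : ρ g * ρ k = ρ k * ρ g := by
  have h1 := h g hg k hk
  have h3 := h k hk g hg
  have c1 := Algebra.commutes (e g) (ρ k)
  have c2 := Algebra.commutes (e k) (ρ g)
  have c3 : algebraMap A (Matrix (Fin 2) (Fin 2) A) (e g) * algebraMap A _ (e k) =
      algebraMap A _ (e k) * algebraMap A _ (e g) := by
    rw [← map_mul, ← map_mul, mul_comm]
  rw [sub_mul, mul_sub, mul_sub] at h1 h3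
  have h4 : ρ g * ρ k = ρ g * algebraMap A _ (e k) + (algebraMap A _ (e g) * ρ k -
      algebraMap A _ (e g) * algebraMap A _ (e k)) := by
    rw [← sub_eq_zero, ← h1]; abel
  have h5 : ρ k * ρ g = ρ k * algebraMap A _ (e g) + (algebraMap A _ (e k) * ρ g -
      algebraMap A _ (e k) * algebraMap A _ (e g)) := by
    rw [← sub_eq_zero, ← h3]; abel
  rw [h4, h5, c1, c2, c3]
  abel

theorem sq_of_rel (h2 : (2 : A) = 0) {e : GQ → A} {D : Subgroup GQ}
    (h : ∀ g ∈ D, ∀ h ∈ D, (ρ g - algebraMap A (Matrix (Fin 2) (Fin 2) A) (e g)) *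
      (ρ h - algebraMap A (Matrix (Fin 2) (Fin 2) A) (e h)) = 0) {g : GQ} (hg : g ∈ D) :
    ∃ c, ρ g * ρ g = Matrix.scalar (Fin 2) c := by
  have h1 := h g hg g hg
  have c1 := Algebra.commutes (e g) (ρ g)
  have e3 : ∀ X : Matrix (Fin 2) (Fin 2) A, X + X = 0 := by
    intro X
    ext i j
    rw [Matrix.add_apply, ← two_mul, h2, zero_mul, Matrix.zero_apply]
  refine ⟨e g * e g, ?_⟩
  rw [sub_mul, mul_sub, mul_sub, c1] at h1
  have h3 : Matrix.scalar (Fin 2) (e g * e g) =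
      algebraMap A (Matrix (Fin 2) (Fin 2) A) (e g) * algebraMap A _ (e g) := by
    rw [← map_mul]; rfl
  rw [h3]
  have h4 : ρ g * ρ g - (ρ g * algebraMap A _ (e g) + ρ g * algebraMap A _ (e g)) +
      algebraMap A (Matrix (Fin 2) (Fin 2) A) (e g) * algebraMap A _ (e g) = 0 := by
    rw [← h1]; abel
  rw [e3, sub_zero] at h4
  have h5 := e3 (algebraMap A (Matrix (Fin 2) (Fin 2) A) (e g) * algebraMap A _ (e g))
  exact add_right_cancel (h4.trans h5.symm)

end Main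

end Fermat.Agent.P2.Dih
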