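import Mathlib

/-!
# P2, block 5a: even and odd parts of `2 × 2` matrices in characteristic two

`t = !![0,1;1,1]` has order three. `part 0 m` is the component of `m` commuting with `t`,
`part 1 m` the component `x` with `x t = t² x`.
-/

set_option autoImplicit false
set_option linter.unusedSectionVars false

open Matrix

namespace Fermat.Agent.P2.Dih

variable {A B : Type*} [CommRing A] [CommRing B]

/-- even part -/
def evP (m : Matrix (Fin 2) (Fin 2) A) : Matrix (Fin 2) (Fin 2) A :=
  !![m 0 0 + m 0 1 + m 1 0, m 0 0 + m 1 1; m 0 0 + m 1 1, m 0 1 + m 1 0 + m 1 1]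

/-- odd part -/
def odP (m : Matrix (Fin 2) (Fin 2) A) : Matrix (Fin 2) (Fin 2) A :=
  !![m 0 1 + m 1 0, m 0 0 + m 0 1 + m 1 1; m 0 0 + m 1 1 + m 1 0, m 0 1 + m 1 0]

/-- the component of parity `δ` -/
def part (δ : ZMod 2) (m : Matrix (Fin 2) (Fin 2) A) : Matrix (Fin 2) (Fin 2) A :=
  if δ = 0 then evP m else odP m

theorem part_zero_left (m : Matrix (Fin 2) (Fin 2) A) : part 0 m = evP m := if_pos rfl

theorem part_one_left (m : Matrix (Fin 2) (Fin 2) A) : part 1 m = odP m :=
  if_neg (by decide)

theorem zmod2_cases (δ : ZMod 2) : δ = 0 ∨ δ = 1 := by revert δ; decide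

theorem one_add_one : (1 + 1 : ZMod 2) = 0 := rfl

theorem add_self_zmod2 (δ : ZMod 2) : δ + δ = 0 := by revert δ; decide

theorem part_add (δ : ZMod 2) (m n : Matrix (Fin 2) (Fin 2) A) :
    part δ (m + n) = part δ m + part δ n := by
  rcases zmod2_cases δ with rfl | rfl
  · simp only [part_zero_left]
    ext i j
    fin_cases i <;> fin_cases j <;> simp [evP] <;> ring
  · simp only [part_one_left]
    ext i j
    fin_cases i <;> fin_cases j <;> simp [odP] <;> ring

theorem part_zero (δ : ZMod 2) : part δ (0 : Matrix (Fin 2) (Fin 2) A) = 0 := by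
  rcases zmod2_cases δ with rfl | rfl
  · rw [part_zero_left]
    ext i j
    fin_cases i <;> fin_cases j <;> simp [evP]
  · rw [part_one_left]
    ext i j
    fin_cases i <;> fin_cases j <;> simp [odP]

theorem part_map (f : A →+* B) (δ : ZMod 2) (m : Matrix (Fin 2) (Fin 2) A) :
    (part δ m).map f = part δ (m.map f) := by
  rcases zmod2_cases δ with rfl | rfl
  · simp only [part_zero_left]
    ext i j
    fin_cases i <;> fin_cases j <;> simp [evP]
  · simp only [part_one_left]
    ext i j
    fin_cases i <;> fin_cases j <;> simp [odP]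

section Char

variable (h2 : (2 : A) = 0)

include h2

theorem evP_add_odP (m : Matrix (Fin 2) (Fin 2) A) : evP m + odP m = m := by
  ext i j
  fin_cases i <;> fin_cases j <;> simp [evP, odP]
  · linear_combination (m 0 1 + m 1 0) * h2
  · linear_combination (m 0 0 + m 1 1) * h2
  · linear_combination (m 0 0 + m 1 1) * h2
  · linear_combination (m 0 1 + m 1 0) * h2

theorem part_add_part (δ : ZMod 2) (m : Matrix (Fin 2) (Fin 2) A) :
    part δ m + part (δ + 1) m = m := by
  rcases zmod2_cases δ with rfl | rfl
  · rw [zero_add, part_zero_left, part_one_left, evP_add_odP h2]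
  · rw [one_add_one, part_zero_left, part_one_left, add_comm, evP_add_odP h2]

theorem evP_mul (m n : Matrix (Fin 2) (Fin 2) A) :
    evP (m * n) = evP m * evP n + odP m * odP n := by
  ext i j
  fin_cases i <;> fin_cases j <;> simp [evP, odP, Matrix.mul_apply, Fin.sum_univ_two] <;>
    rw [← sub_eq_zero] <;> ring_nf <;> simp [h2]

theorem odP_mul (m n : Matrix (Fin 2) (Fin 2) A) :
    odP (m * n) = evP m * odP n + odP m * evP n := by
  ext i j
  fin_cases i <;> fin_cases j <;> simp [evP, odP, Matrix.mul_apply, Fin.sum_univ_two] <;>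
    rw [← sub_eq_zero] <;> ring_nf <;> simp [h2]

theorem part_mul (δ α : ZMod 2) (m n : Matrix (Fin 2) (Fin 2) A) :
    part δ (m * n) = part α m * part (δ + α) n + part (α + 1) m * part (δ + α + 1) n := by
  rcases zmod2_cases δ with rfl | rfl <;> rcases zmod2_cases α with rfl | rfl <;>
    simp only [zero_add, add_zero, one_add_one, part_zero_left, part_one_left, evP_mul h2,
      odP_mul h2]
  · rw [add_comm]
  · rw [add_comm]

theorem part_scalar_one (c : A) : part 1 (Matrix.scalar (Fin 2) c) = 0 := by
  rw [part_one_left]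
  ext i j
  fin_cases i <;> fin_cases j <;> simp [odP] <;> linear_combination c * h2

theorem part_one_one : part 1 (1 : Matrix (Fin 2) (Fin 2) A) = 0 := by
  have := part_scalar_one h2 (1 : A)
  rwa [map_one] at this

theorem part_part (δ : ZMod 2) (m : Matrix (Fin 2) (Fin 2) A) : part (δ + 1) (part δ m) = 0 := by
  rcases zmod2_cases δ with rfl | rfl
  · rw [zero_add, part_one_left, part_zero_left]
    ext i j
    fin_cases i <;> fin_cases j <;> simp [evP, odP] <;>
      ring_nf <;> simp [h2]
  · rw [one_add_one, part_one_left, part_zero_left]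
    ext i j
    fin_cases i <;> fin_cases j <;> simp [evP, odP] <;>
      ring_nf <;> simp [h2]

theorem part_part_self (δ : ZMod 2) (m : Matrix (Fin 2) (Fin 2) A) :
    part δ (part δ m) = part δ m := by
  have h := part_add_part h2 δ (part δ m)
  rwa [part_part h2, add_zero] at h

/-- Even matrices commute. -/
theorem even_comm (m n : Matrix (Fin 2) (Fin 2) A) : evP m * evP n = evP n * evP m := by
  ext i j
  fin_cases i <;> fin_cases j <;> simp [evP, Matrix.mul_apply, Fin.sum_univ_two] <;>
    rw [← sub_eq_zero] <;> ring_nf <;> simp [h2]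

/-- Odd matrices have trace zero. -/
theorem trace_odP (m : Matrix (Fin 2) (Fin 2) A) : (odP m).trace = 0 := by
  rw [Matrix.trace_fin_two]
  simp [odP]
  linear_combination (m 0 1 + m 1 0) * h2

end Char

end Fermat.Agent.P2.Dih
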