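import Fermat.Agent.P2.Dih.Parts

/-!
# P2, block 5a: parity of matrices over `𝔽₂`, functionals on ideals
-/

set_option autoImplicit false
set_option linter.unusedSectionVars false

open Matrix IsLocalRing

namespace Fermat.Agent.P2.Dih

abbrev M2 := Matrix (Fin 2) (Fin 2) (ZMod 2)

/-- parity of a matrix over `𝔽₂` -/
def par (m : M2) : ZMod 2 := if m 0 1 + m 1 0 = 0 ∧ m 0 0 + m 0 1 + m 1 1 = 0 then 0 else 1

theorem two_zmod2 : (2 : ZMod 2) = 0 := rfl

theorem par_spec_aux : ∀ a b c d : ZMod 2, a * d - b * c = 1 →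
    (if b + c = 0 ∧ a + b + d = 0 then b + c = 0 ∧ a + b + d = 0 ∧ a + d + c = 0
      else a + b + c = 0 ∧ a + d = 0 ∧ b + c + d = 0) := by decide

theorem det_eq_one_of_mul {m n : M2} (h : m * n = 1) : m.det = 1 := by
  have h1 : m.det * n.det = 1 := by rw [← Matrix.det_mul, h, Matrix.det_one]
  have h2 : ∀ x y : ZMod 2, x * y = 1 → x = 1 := by decide
  exact h2 _ _ h1

/-- an invertible matrix over `𝔽₂` is purely even or purely odd -/
theorem part_par {m : M2} (h : m.det = 1) : part (par m + 1) m = 0 := by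
  rw [Matrix.det_fin_two] at h
  have h1 := par_spec_aux _ _ _ _ h
  unfold par
  split_ifs at h1 ⊢ with h2
  · rw [zero_add, part_one_left]
    obtain ⟨e1, e2, e3⟩ := h1
    ext i j
    fin_cases i <;> fin_cases j <;> simp [odP, e1, e2, e3]
  · rw [one_add_one, part_zero_left]
    obtain ⟨e1, e2, e3⟩ := h1
    ext i j
    fin_cases i <;> fin_cases j <;> simp [evP, e1, e2, e3]

theorem part_par' {m : M2} (h : m.det = 1) : part (par m) m = m := by
  have h1 := part_add_part two_zmod2 (par m) m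
  rwa [part_par h, add_zero] at h1

theorem par_eq {m : M2} (h : m.det = 1) {δ : ZMod 2} (hδ : part (δ + 1) m = 0) : par m = δ := by
  by_contra hne
  have h1 : par m = δ + 1 := by
    have key : ∀ x y : ZMod 2, ¬ x = y → x = y + 1 := by decide
    exact key _ _ hne
  have h2 := part_par' h
  rw [h1, hδ] at h2
  rw [← h2, Matrix.det_zero] at h
  exact zero_ne_one h

theorem par_mul {m n : M2} (hm : m.det = 1) (hn : n.det = 1) : par (m * n) = par m + par n := by
  refine par_eq (by rw [Matrix.det_mul, hm, hn, one_mul]) ?_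
  rw [part_mul two_zmod2 _ (par m)]
  have e1 : par m + par n + 1 + par m = par n + 1 := by
    generalize par m = x; generalize par n = y; revert x y; decide
  have e2 := part_par hm
  rw [e1, part_par hn, e2, mul_zero, zero_mul, add_zero]

theorem par_one : par (1 : M2) = 0 := by decide

/-- the residual matrix of order three -/
def t0 (A : Type*) [CommRing A] : Matrix (Fin 2) (Fin 2) A := !![0, 1; 1, 1]

theorem par_t0 : par (t0 (ZMod 2)) = 0 := by decide

theorem part_t0 {A : Type*} [CommRing A] (h2 : (2 : A) = 0) : part 1 (t0 A) = 0 := by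
  rw [part_one_left]
  ext i j
  fin_cases i <;> fin_cases j <;> simp [odP, t0] <;> linear_combination h2

/-- the vector fixed by an odd matrix -/
def vec (T : M2) : Fin 2 → ZMod 2 := ![T 0 1, T 1 0]

theorem vec_add (T T' : M2) : vec (T + T') = vec T + vec T' := by
  ext i; fin_cases i <;> simp [vec]

theorem vec_zero : vec 0 = 0 := by
  ext i; fin_cases i <;> simp [vec]

theorem eq_odd {T : M2} (h : evP T = 0) : T = !![T 0 1 + T 1 0, T 0 1; T 1 0, T 0 1 + T 1 0] := by
  have h1 := congrFun (congrFun h 0) 0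
  have h2 := congrFun (congrFun h 0) 1
  simp [evP] at h1 h2
  have key : ∀ a b c d : ZMod 2, a + b + c = 0 → a + d = 0 → a = b + c ∧ d = b + c := by decide
  obtain ⟨e1, e2⟩ := key _ _ _ _ h1 h2
  ext i j
  fin_cases i <;> fin_cases j <;> simp [e1, e2]

theorem eq_zero_of_vec {T : M2} (h : evP T = 0) (hv : vec T = 0) : T = 0 := by
  have h1 := congrFun hv 0
  have h2 := congrFun hv 1
  simp [vec] at h1 h2
  rw [eq_odd h, h1, h2]
  ext i j
  fin_cases i <;> fin_cases j <;> simp

theorem equiv_aux : ∀ a b c d u v : ZMod 2, a * d - b * c = 1 →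
    (a * (u + v) + b * v) * -b + (a * u + b * (u + v)) * a = a * u + b * v ∧
    (c * (u + v) + d * v) * d + (c * u + d * (u + v)) * -c = c * u + d * v := by decide

theorem vec_conj {p p' T : M2} (hp : p * p' = 1) (hT : evP T = 0) :
    vec (p * T * p') = p.mulVec (vec T) := by
  have hdet := det_eq_one_of_mul hp
  have hp' : p' = p.adjugate := by
    calc p' = p.adjugate * p * p' := by rw [Matrix.adjugate_mul, hdet, one_smul, one_mul]
      _ = _ := by rw [mul_assoc, hp, mul_one]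
  rw [Matrix.det_fin_two] at hdet
  rw [hp', Matrix.adjugate_fin_two, eq_odd hT]
  obtain ⟨e1, e2⟩ := equiv_aux _ _ _ _ (T 0 1) (T 1 0) hdet
  ext i
  fin_cases i
  · simp only [vec, Matrix.mul_apply, Fin.sum_univ_two, Matrix.mulVec, dotProduct, of_apply, cons_val', cons_val_zero,
      cons_val_one, cons_val_fin_one, Fin.zero_eta, Fin.isValue]
    exact e1
  · simp only [vec, Matrix.mul_apply, Fin.sum_univ_two, Matrix.mulVec, dotProduct, of_apply, cons_val', cons_val_zero,
      cons_val_one, cons_val_fin_one, Fin.mk_one, Fin.isValue]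
    exact e2

set_option synthInstance.maxSize 10000 in
theorem inv_cases_aux : ∀ a b c d : ZMod 2, a * a + b * c = 1 → a * b + b * d = 0 →
    c * a + d * c = 0 → c * b + d * d = 1 → ¬ (a = 1 ∧ b = 0 ∧ c = 0 ∧ d = 1) →
    (a = 0 ∧ b = 1 ∧ c = 1 ∧ d = 0) ∨ (a = 1 ∧ b = 0 ∧ c = 1 ∧ d = 1) ∨
      (a = 1 ∧ b = 1 ∧ c = 0 ∧ d = 1) := by decide

theorem ne_one_aux {m : M2} (h : m ≠ 1) :
    ¬ (m 0 0 = 1 ∧ m 0 1 = 0 ∧ m 1 0 = 0 ∧ m 1 1 = 1) := by
  rintro ⟨h1, h2, h3, h4⟩
  apply h
  ext i j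
  fin_cases i <;> fin_cases j <;> simp [h1, h2, h3, h4]

theorem inv_cases {m : M2} (hm : m * m = 1) (hm1 : m ≠ 1) :
    m = !![0, 1; 1, 0] ∨ m = !![1, 0; 1, 1] ∨ m = !![1, 1; 0, 1] := by
  have q := fun (X Y : M2) (e : X = Y) (i j : Fin 2) => congrFun (congrFun e i) j
  have a1 := q _ _ hm 0 0
  have a2 := q _ _ hm 0 1
  have a3 := q _ _ hm 1 0
  have a4 := q _ _ hm 1 1
  simp only [Matrix.mul_apply, Fin.sum_univ_two, Matrix.one_apply, Fin.isValue, if_true,
    zero_ne_one, one_ne_zero, if_false] at a1 a2 a3 a4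
  rcases inv_cases_aux _ _ _ _ a1 a2 a3 a4 (ne_one_aux hm1) with
    ⟨e1, e2, e3, e4⟩ | ⟨e1, e2, e3, e4⟩ | ⟨e1, e2, e3, e4⟩
  · left
    ext i j; fin_cases i <;> fin_cases j <;> simp [e1, e2, e3, e4]
  · right; left
    ext i j; fin_cases i <;> fin_cases j <;> simp [e1, e2, e3, e4]
  · right; right
    ext i j; fin_cases i <;> fin_cases j <;> simp [e1, e2, e3, e4]

/-- commuting involutions in `GL₂(𝔽₂)` are equal -/
theorem eq_of_comm {m n : M2} (hm : m * m = 1) (hn : n * n = 1) (h : m * n = n * m) (hm1 : m ≠ 1)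
    (hn1 : n ≠ 1) : m = n := by
  rcases inv_cases hm hm1 with rfl | rfl | rfl <;> rcases inv_cases hn hn1 with rfl | rfl | rfl
  · rfl
  · exact absurd h (by decide)
  · exact absurd h (by decide)
  · exact absurd h (by decide)
  · rfl
  · exact absurd h (by decide)
  · exact absurd h (by decide)
  · exact absurd h (by decide)
  · rfl

/-! ### Functionals -/

section Functional

variable {A : Type*} [CommRing A] [IsLocalRing A]

theorem exists_functional (h2 : (2 : A) = 0) (r : A →+* ZMod 2)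
    (hr : ∀ a, r a = 0 → a ∈ maximalIdeal A) (J : Ideal A) (hJ : J.FG) (hne : J ≠ ⊥) :
    ∃ Λ : A → ZMod 2, (∀ x ∈ J, ∀ y ∈ J, Λ (x + y) = Λ x + Λ y) ∧
      (∀ a, ∀ x ∈ J, Λ (a * x) = r a * Λ x) ∧ ∃ x ∈ J, Λ x ≠ 0 := by
  classical
  set N : Submodule A J := maximalIdeal A • (⊤ : Submodule A J) with hN
  have hNtop : N ≠ ⊤ := by
    intro h
    have hfg : (⊤ : Submodule A J).FG := (Submodule.fg_top J).mpr hJ
    have h1 : (⊤ : Submodule A J) = ⊥ := by
      refine Submodule.eq_bot_of_le_smul_of_le_jacobson_bot (maximalIdeal A) ⊤ hfg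
        (le_of_eq (h.symm.trans hN)) ?_
      exact IsLocalRing.maximalIdeal_le_jacobson _
    apply hne
    rw [eq_bot_iff]
    intro x hx
    have h3 : (⟨x, hx⟩ : J) ∈ (⊤ : Submodule A J) := trivial
    rw [h1] at h3
    exact congrArg Subtype.val ((Submodule.mem_bot A).mp h3)
  obtain ⟨x₀, hx₀⟩ : ∃ x₀ : J, x₀ ∉ N := by
    by_contra hcon
    push Not at hcon
    exact hNtop (eq_top_iff.mpr fun x _ => hcon x)
  let _ : Module (ZMod 2) (J ⧸ N) := AddCommGroup.zmodModule (n := 2) fun x => by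
    have : (2 : ℕ) • x = (2 : A) • x := by
      rw [two_nsmul, two_smul]
    rw [this, h2, zero_smul]
  have hx₀' : (Submodule.Quotient.mk x₀ : J ⧸ N) ≠ 0 := by
    rw [Ne, Submodule.Quotient.mk_eq_zero]
    exact hx₀
  obtain ⟨φ, hφ⟩ : ∃ φ : Module.Dual (ZMod 2) (J ⧸ N), φ (Submodule.Quotient.mk x₀) ≠ 0 := by
    by_contra hcon
    push Not at hcon
    exact hx₀' ((Module.forall_dual_apply_eq_zero_iff (ZMod 2) _).mp hcon)
  let Λ : A → ZMod 2 := fun x => if h : x ∈ J then φ (Submodule.Quotient.mk ⟨x, h⟩) else 0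
  have hΛ : ∀ x (h : x ∈ J), Λ x = φ (Submodule.Quotient.mk ⟨x, h⟩) := fun x h => dif_pos h
  refine ⟨Λ, fun x hx y hy => ?_, fun a x hx => ?_, x₀.1, x₀.2, ?_⟩
  · rw [hΛ _ (J.add_mem hx hy), hΛ _ hx, hΛ _ hy, ← map_add]
    rfl
  · rw [hΛ _ (J.mul_mem_left a hx), hΛ _ hx]
    have e1 : (Submodule.Quotient.mk ⟨a * x, J.mul_mem_left a hx⟩ : J ⧸ N) =
        a • Submodule.Quotient.mk ⟨x, hx⟩ := rfl
    have key : ∀ b ∈ maximalIdeal A, (b • Submodule.Quotient.mk ⟨x, hx⟩ : J ⧸ N) = 0 := by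
      intro b hb
      rw [← Submodule.Quotient.mk_smul, Submodule.Quotient.mk_eq_zero]
      exact Submodule.smul_mem_smul hb trivial
    have hcases : r a = 0 ∨ r a = 1 := zmod2_cases _
    rcases hcases with h | h
    · rw [e1, key a (hr a h), map_zero, h, zero_mul]
    · have h3 : a - 1 ∈ maximalIdeal A := hr _ (by rw [map_sub, h, map_one, sub_self])
      have h4 := key _ h3
      rw [sub_smul, one_smul, sub_eq_zero] at h4
      rw [e1, h4, h, one_mul]
  · rw [hΛ _ x₀.2]
    exact hφ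

end Functional

end Fermat.Agent.P2.Dih
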